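import Mathlib
import Fermat.Prelude.Def_GaloisRep_Flat

/-!
# S28: the residue map `Z_(ℓ) → F_ℓ` and Gauss normalisation

`resR ℓ : ratLocalizedAt ℓ →+* ZMod ℓ`, with kernel `(ℓ)`.
`GaussTriple ℓ i r` packages, for ring homs `i : SR → SQ`, `r : SR → Sk`:
`i` injective, `r ℓ = 0`, `ker r ⊆ (ℓ)`, and every nonzero `x : SQ` satisfies
`ℓ^a x = ℓ^b i(s)` with `r s ≠ 0`. It holds for `(ℚ, Z_(ℓ), F_ℓ)` and is inherited by polynomial rings.
-/

set_option autoImplicit false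

namespace Fermat.Agent.S28

open Polynomial

noncomputable section

theorem mem_ratLocalizedAt_iff (ℓ : ℕ) (q : ℚ) :
    q ∈ GaloisRep.ratLocalizedAt ℓ ↔ q.den.Coprime ℓ := Iff.rfl

theorem intCast_mem_ratLocalizedAt (ℓ : ℕ) (a : ℤ) : (a : ℚ) ∈ GaloisRep.ratLocalizedAt ℓ := by
  rw [mem_ratLocalizedAt_iff]; simp

section Res

variable (ℓ : ℕ) [Fact ℓ.Prime]

theorem den_ne_zero_of_mem {q : ℚ} (hq : q ∈ GaloisRep.ratLocalizedAt ℓ) :
    ((q.den : ℕ) : ZMod ℓ) ≠ 0 := by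
  intro h
  rw [ZMod.natCast_eq_zero_iff] at h
  have hc : q.den.Coprime ℓ := hq
  have h1 : ℓ ∣ Nat.gcd q.den ℓ := Nat.dvd_gcd h dvd_rfl
  rw [hc] at h1
  exact (Fact.out : ℓ.Prime).one_lt.ne' (Nat.dvd_one.mp h1)

/-- The residue map `Z_(ℓ) → F_ℓ`. -/
def resR : ↥(GaloisRep.ratLocalizedAt ℓ) →+* ZMod ℓ where
  toFun x := ((x : ℚ) : ZMod ℓ)
  map_one' := by simp
  map_zero' := by simp
  map_mul' x y := by
    show (((x * y : ↥(GaloisRep.ratLocalizedAt ℓ)) : ℚ) : ZMod ℓ) = _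
    rw [Subring.coe_mul]
    exact Rat.cast_mul_of_ne_zero (den_ne_zero_of_mem ℓ x.2) (den_ne_zero_of_mem ℓ y.2)
  map_add' x y := by
    show (((x + y : ↥(GaloisRep.ratLocalizedAt ℓ)) : ℚ) : ZMod ℓ) = _
    rw [Subring.coe_add]
    exact Rat.cast_add_of_ne_zero (den_ne_zero_of_mem ℓ x.2) (den_ne_zero_of_mem ℓ y.2)

theorem resR_apply (x : ↥(GaloisRep.ratLocalizedAt ℓ)) : resR ℓ x = ((x : ℚ) : ZMod ℓ) := rfl

theorem resR_ell : resR ℓ (ℓ : ↥(GaloisRep.ratLocalizedAt ℓ)) = 0 := by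
  rw [map_natCast]; exact ZMod.natCast_self ℓ

omit [Fact ℓ.Prime] in
theorem div_mem_ratLocalizedAt {a : ℤ} {b : ℕ} (hb : b.Coprime ℓ) :
    ((a : ℚ) / (b : ℚ)) ∈ GaloisRep.ratLocalizedAt ℓ := by
  rw [mem_ratLocalizedAt_iff]
  have hdvd : ((a : ℚ) / (b : ℚ)).den ∣ b := by
    have := Rat.den_dvd a b
    rw [Rat.divInt_eq_div] at this
    exact_mod_cast this
  exact Nat.Coprime.coprime_dvd_left hdvd hb

theorem resR_ker (x : ↥(GaloisRep.ratLocalizedAt ℓ)) (hx : resR ℓ x = 0) :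
    ∃ y : ↥(GaloisRep.ratLocalizedAt ℓ), x = (ℓ : ↥(GaloisRep.ratLocalizedAt ℓ)) * y := by
  have hd := den_ne_zero_of_mem ℓ x.2
  rw [resR_apply, Rat.cast_def, div_eq_zero_iff] at hx
  have hnum : (((x : ℚ).num : ℤ) : ZMod ℓ) = 0 := hx.resolve_right hd
  rw [ZMod.intCast_zmod_eq_zero_iff_dvd] at hnum
  obtain ⟨m, hm⟩ := hnum
  have hmem : ((m : ℚ) / ((x : ℚ).den : ℚ)) ∈ GaloisRep.ratLocalizedAt ℓ :=
    div_mem_ratLocalizedAt ℓ x.2
  refine ⟨⟨_, hmem⟩, Subtype.ext ?_⟩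
  rw [Subring.coe_mul]
  have hden : ((x : ℚ).den : ℚ) ≠ 0 := by exact_mod_cast (x : ℚ).den_nz
  have hx' : (x : ℚ) = ((x : ℚ).num : ℚ) / ((x : ℚ).den : ℚ) := (Rat.num_div_den _).symm
  show (x : ℚ) = ((ℓ : ↥(GaloisRep.ratLocalizedAt ℓ)) : ℚ) * ((m : ℚ) / ((x : ℚ).den : ℚ))
  have hl : ((ℓ : ↥(GaloisRep.ratLocalizedAt ℓ)) : ℚ) = (ℓ : ℚ) := by simp
  rw [hl]
  conv_lhs => rw [hx', hm]
  push_cast
  field_simp

/-- every nonzero rational is `ℓ^(b-a)` times an `ℓ`-adic unit -/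
theorem rat_normalise (q : ℚ) (hq : q ≠ 0) :
    ∃ (a b : ℕ) (s : ↥(GaloisRep.ratLocalizedAt ℓ)), resR ℓ s ≠ 0 ∧
      (ℓ : ℚ) ^ a * q = (ℓ : ℚ) ^ b * (s : ℚ) := by
  have hℓ : ℓ.Prime := Fact.out
  have hnum : q.num ≠ 0 := Rat.num_ne_zero.mpr hq
  have hnat : q.num.natAbs ≠ 0 := Int.natAbs_ne_zero.mpr hnum
  obtain ⟨b, n', hn', hnb⟩ := Nat.exists_eq_pow_mul_and_not_dvd hnat ℓ hℓ.ne_one
  obtain ⟨a, d', hd', hda⟩ := Nat.exists_eq_pow_mul_and_not_dvd q.den_nz ℓ hℓ.ne_one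
  have hd'c : d'.Coprime ℓ := (Nat.Coprime.symm ((Nat.Prime.coprime_iff_not_dvd hℓ).mpr hd'))
  have hmem : (((q.num.sign * n' : ℤ) : ℚ) / (d' : ℚ)) ∈ GaloisRep.ratLocalizedAt ℓ :=
    div_mem_ratLocalizedAt ℓ hd'c
  have hd'0 : (d' : ℚ) ≠ 0 := by
    intro h
    have : d' = 0 := by exact_mod_cast h
    rw [this, mul_zero] at hda
    exact q.den_nz hda
  refine ⟨a, b, ⟨_, hmem⟩, ?_, ?_⟩
  · intro hres
    have hprod : (⟨_, hmem⟩ : ↥(GaloisRep.ratLocalizedAt ℓ)) * ((d' : ℕ) : ↥(GaloisRep.ratLocalizedAt ℓ)) =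
        ((q.num.sign * n' : ℤ) : ↥(GaloisRep.ratLocalizedAt ℓ)) := by
      apply Subtype.ext
      rw [Subring.coe_mul]
      show (((q.num.sign * n' : ℤ) : ℚ) / (d' : ℚ)) *
        (((d' : ℕ) : ↥(GaloisRep.ratLocalizedAt ℓ)) : ℚ) =
        (((q.num.sign * n' : ℤ) : ↥(GaloisRep.ratLocalizedAt ℓ)) : ℚ)
      have h1 : (((d' : ℕ) : ↥(GaloisRep.ratLocalizedAt ℓ)) : ℚ) = (d' : ℚ) := by simp
      have h2 : (((q.num.sign * n' : ℤ) : ↥(GaloisRep.ratLocalizedAt ℓ)) : ℚ) =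
          ((q.num.sign * n' : ℤ) : ℚ) := by simp
      rw [h1, h2]
      field_simp
    have := congrArg (resR ℓ) hprod
    rw [map_mul, hres, zero_mul, map_intCast] at this
    have hz : ((q.num.sign * n' : ℤ) : ZMod ℓ) = 0 := this.symm
    rw [ZMod.intCast_zmod_eq_zero_iff_dvd, Int.natCast_dvd, Int.natAbs_mul, Int.natAbs_natCast] at hz
    have hs : q.num.sign.natAbs = 1 := by
      rcases Int.natAbs_eq q.num with h | h
      · have hpos : 0 < q.num := by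
          rcases lt_trichotomy 0 q.num with h1 | h1 | h1
          · exact h1
          · exact absurd h1.symm hnum
          · rw [h] at h1; exact absurd h1 (by simp)
        rw [Int.sign_eq_one_of_pos hpos]; rfl
      · have hneg : q.num < 0 := by
          rcases lt_trichotomy 0 q.num with h1 | h1 | h1
          · rw [h] at h1; simp at h1; omega
          · exact absurd h1.symm hnum
          · exact h1
        rw [Int.sign_eq_neg_one_of_neg hneg]; rfl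
    rw [hs, one_mul] at hz
    exact hn' hz
  · show (ℓ : ℚ) ^ a * q = (ℓ : ℚ) ^ b * (((q.num.sign * n' : ℤ) : ℚ) / (d' : ℚ))
    have hq' : q = (q.num : ℚ) / (q.den : ℚ) := (Rat.num_div_den q).symm
    have hnumeq : (q.num : ℚ) = (q.num.sign : ℚ) * ((ℓ : ℚ) ^ b * (n' : ℚ)) := by
      have h1 : q.num = q.num.sign * (q.num.natAbs : ℤ) := (Int.sign_mul_natAbs q.num).symm
      have h2 : ((q.num.natAbs : ℤ) : ℚ) = (ℓ : ℚ) ^ b * (n' : ℚ) := by
        rw [hnb]; push_cast; ring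
      calc (q.num : ℚ) = ((q.num.sign * (q.num.natAbs : ℤ) : ℤ) : ℚ) := by rw [← h1]
        _ = _ := by push_cast; rw [← h2]; push_cast; ring
    have hdeneq : (q.den : ℚ) = (ℓ : ℚ) ^ a * (d' : ℚ) := by
      conv_lhs => rw [hda]
      push_cast; ring
    have hl0 : (ℓ : ℚ) ≠ 0 := by exact_mod_cast hℓ.ne_zero
    conv_lhs => rw [hq', hnumeq, hdeneq]
    push_cast
    field_simp

end Res

/-- Gauss-normalisation data for `ℓ`: `SQ ⊇ SR → Sk`. -/
structure GaussTriple (ℓ : ℕ) {SQ SR Sk : Type*} [CommRing SQ] [CommRing SR] [CommRing Sk]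
    (i : SR →+* SQ) (r : SR →+* Sk) : Prop where
  inj : Function.Injective i
  ell : r (ℓ : SR) = 0
  ker : ∀ s : SR, r s = 0 → ∃ s' : SR, s = (ℓ : SR) * s'
  nrm : ∀ x : SQ, x ≠ 0 → ∃ (a b : ℕ) (s : SR), r s ≠ 0 ∧ (ℓ : SQ) ^ a * x = (ℓ : SQ) ^ b * i s

theorem gaussTriple_base (ℓ : ℕ) [Fact ℓ.Prime] :
    GaussTriple ℓ (GaloisRep.ratLocalizedAt ℓ).subtype (resR ℓ) where
  inj := Subtype.val_injective
  ell := resR_ell ℓ
  ker := resR_ker ℓ
  nrm := fun x hx => by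
    obtain ⟨a, b, s, hs, h⟩ := rat_normalise ℓ x hx
    exact ⟨a, b, s, hs, by simpa using h⟩


section Poly

variable {ℓ : ℕ} {SQ SR Sk : Type*} [CommRing SQ] [CommRing SR] [CommRing Sk]
  {i : SR →+* SQ} {r : SR →+* Sk}

theorem natCast_poly_eq_C (A : Type*) [CommRing A] (m : ℕ) : ((m : ℕ) : A[X]) = C (m : A) := by
  simp

/-- Gauss triples are inherited by polynomial rings. -/
theorem GaussTriple.polynomial (h : GaussTriple ℓ i r) :
    GaussTriple ℓ (mapRingHom i) (mapRingHom r) where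
  inj := Polynomial.map_injective i h.inj
  ell := by
    rw [natCast_poly_eq_C, coe_mapRingHom, Polynomial.map_C, h.ell, C_0]
  ker := by
    classical
    intro P hP
    have hc : ∀ n, ∃ c : SR, P.coeff n = (ℓ : SR) * c := by
      intro n
      apply h.ker
      have := congrArg (fun Q => Polynomial.coeff Q n) hP
      simpa using this
    choose c hc using hc
    refine ⟨∑ n ∈ P.support, monomial n (c n), ?_⟩
    ext m
    rw [natCast_poly_eq_C, coeff_C_mul, finsetSum_coeff]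
    simp only [coeff_monomial]
    rw [Finset.sum_ite_eq' P.support m]
    by_cases hm : m ∈ P.support
    · rw [if_pos hm]; exact hc m
    · rw [if_neg hm, mul_zero]
      exact notMem_support_iff.mp hm
  nrm := by
    classical
    intro P hP
    have hex : ∀ n, P.coeff n ≠ 0 → ∃ (a b : ℕ) (s : SR), r s ≠ 0 ∧
        (ℓ : SQ) ^ a * P.coeff n = (ℓ : SQ) ^ b * i s := fun n hn => h.nrm _ hn
    choose! a b s hs using hex
    have hne : P.support.Nonempty := by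
      rw [Finset.nonempty_iff_ne_empty, Ne, support_eq_empty]; exact hP
    set A : ℕ := ∑ n ∈ P.support, a n with hA
    have haA : ∀ n ∈ P.support, a n ≤ A := fun n hn =>
      Finset.single_le_sum (f := a) (fun _ _ => Nat.zero_le _) hn
    set e : ℕ → ℕ := fun n => A - a n + b n with he
    obtain ⟨n₀, hn₀, hmin⟩ := Finset.exists_min_image P.support e hne
    refine ⟨A, e n₀, ∑ n ∈ P.support, monomial n ((ℓ : SR) ^ (e n - e n₀) * s n), ?_, ?_⟩
    · intro hzero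
      have := congrArg (fun Q => Polynomial.coeff Q n₀) hzero
      simp only [coe_mapRingHom, coeff_map, finsetSum_coeff, coeff_monomial, coeff_zero] at this
      rw [Finset.sum_ite_eq' P.support n₀, if_pos hn₀, Nat.sub_self, pow_zero, one_mul] at this
      exact (hs n₀ (mem_support_iff.mp hn₀)).1 this
    · ext m
      rw [natCast_poly_eq_C, ← C_pow, ← C_pow, coeff_C_mul, coeff_C_mul,
        coe_mapRingHom, coeff_map, finsetSum_coeff]
      simp only [coeff_monomial]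
      rw [Finset.sum_ite_eq' P.support m]
      by_cases hm : m ∈ P.support
      · rw [if_pos hm, map_mul, map_pow, map_natCast, ← mul_assoc, ← pow_add,
          Nat.add_sub_cancel' (hmin m hm)]
        have h1 := (hs m (mem_support_iff.mp hm)).2
        show (ℓ : SQ) ^ A * P.coeff m = (ℓ : SQ) ^ (A - a m + b m) * i (s m)
        rw [pow_add, mul_assoc, ← h1, ← mul_assoc, ← pow_add, Nat.sub_add_cancel (haA m hm)]
      · rw [if_neg hm, map_zero, mul_zero, notMem_support_iff.mp hm, mul_zero]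

end Poly

section Instances

variable (ℓ : ℕ) [Fact ℓ.Prime]

theorem gaussTriple_poly1 :
    GaussTriple ℓ (SQ := ℚ[X]) (SR := (↥(GaloisRep.ratLocalizedAt ℓ))[X]) (Sk := (ZMod ℓ)[X])
      (mapRingHom (GaloisRep.ratLocalizedAt ℓ).subtype) (mapRingHom (resR ℓ)) :=
  (gaussTriple_base ℓ).polynomial

theorem gaussTriple_poly2 :
    GaussTriple ℓ (SQ := ℚ[X][X]) (SR := (↥(GaloisRep.ratLocalizedAt ℓ))[X][X])
      (Sk := (ZMod ℓ)[X][X])
      (mapRingHom (mapRingHom (GaloisRep.ratLocalizedAt ℓ).subtype))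
      (mapRingHom (mapRingHom (resR ℓ))) :=
  (gaussTriple_poly1 ℓ).polynomial

end Instances

end

end Fermat.Agent.S28
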