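import Mathlib

/-!
# S28, WP3b (helper31): arithmetic of the exponents of the canonical modular unit

`w_N(τ) = ∏_{T ⊆ primeFactors N} Δ(δ_T τ)^{m_T}` with `δ_T = N / ∏_{p∈T} p` and
`m_T = (-1)^{|T|} ∏_{p ∈ primeFactors N \ T} p`  (i.e. `s = ∏ T`, `m = μ(s)·rad/s`).

* `sum_unitExp`     : `Σ_T m_T = ∏_{p ∣ N} (p - 1) = φ(rad N)`
* `unitOrd_eq_zero` : `Σ_T m_T gcd(δ_T, c)² / δ_T = 0` when `N ∤ c`
* `IsNUnit`         : positive rationals `a / b` all of whose primes divide `N`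
-/

set_option autoImplicit false

namespace Fermat.Agent.S28

open Finset

/-- The level `δ_T = N / ∏_{p ∈ T} p`. -/
def unitDelta (N : ℕ) (T : Finset ℕ) : ℕ := N / ∏ p ∈ T, p

/-- The exponent `m_T = (-1)^{|T|} ∏_{p ∈ primeFactors N \ T} p`. -/
def unitExp (N : ℕ) (T : Finset ℕ) : ℤ := (-1) ^ T.card * ∏ p ∈ N.primeFactors \ T, (p : ℤ)

/-- `φ(rad N) = ∏_{p ∣ N} (p - 1)`. -/
def unitPhi (N : ℕ) : ℕ := ∏ p ∈ N.primeFactors, (p - 1)

/-- The index set of the canonical unit: subsets of the prime factors of `N`. -/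
def unitIdx (N : ℕ) : Finset (Finset ℕ) := N.primeFactors.powerset

lemma unitPhi_pos (N : ℕ) : 0 < unitPhi N := by
  unfold unitPhi
  refine Finset.prod_pos fun p hp => ?_
  have := (Nat.prime_of_mem_primeFactors hp).two_le
  omega

lemma sum_unitExp (N : ℕ) : ∑ T ∈ unitIdx N, unitExp N T = (unitPhi N : ℤ) := by
  unfold unitExp unitPhi unitIdx
  rw [Nat.cast_prod]
  have h1 : ∀ p ∈ N.primeFactors, ((p - 1 : ℕ) : ℤ) = (-1 : ℤ) + (p : ℤ) := by
    intro p hp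
    have := (Nat.prime_of_mem_primeFactors hp).one_le
    rw [Nat.cast_sub this]; ring
  rw [Finset.prod_congr rfl h1, Finset.prod_add]
  refine Finset.sum_congr rfl fun T _ => ?_
  rw [Finset.prod_const]

lemma wp3b_prod_dvd_of_subset_primeFactors {N : ℕ} {T : Finset ℕ} (hT : T ⊆ N.primeFactors) :
    (∏ p ∈ T, p) ∣ N :=
  (Finset.prod_dvd_prod_of_subset _ _ _ hT).trans (Nat.prod_primeFactors_dvd N)

lemma wp3b_prod_pos_of_subset_primeFactors {N : ℕ} {T : Finset ℕ} (hT : T ⊆ N.primeFactors) :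
    0 < ∏ p ∈ T, p :=
  Finset.prod_pos fun _ hp => (Nat.prime_of_mem_primeFactors (hT hp)).pos

lemma unitDelta_dvd {N : ℕ} {T : Finset ℕ} (hT : T ⊆ N.primeFactors) : unitDelta N T ∣ N :=
  Nat.div_dvd_of_dvd (wp3b_prod_dvd_of_subset_primeFactors hT)

lemma unitDelta_mul {N : ℕ} {T : Finset ℕ} (hT : T ⊆ N.primeFactors) :
    unitDelta N T * ∏ p ∈ T, p = N :=
  Nat.div_mul_cancel (wp3b_prod_dvd_of_subset_primeFactors hT)

lemma unitDelta_pos {N : ℕ} (hN : N ≠ 0) {T : Finset ℕ} (hT : T ⊆ N.primeFactors) :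
    0 < unitDelta N T :=
  Nat.pos_of_ne_zero fun h => hN (by rw [← unitDelta_mul hT, h, zero_mul])

lemma unitDelta_mem_divisors {N : ℕ} (hN : N ≠ 0) {T : Finset ℕ} (hT : T ⊆ N.primeFactors) :
    unitDelta N T ∈ N.divisors :=
  Nat.mem_divisors.mpr ⟨unitDelta_dvd hT, hN⟩

/-- `m_T · s_T = (-1)^{|T|} rad N`. -/
lemma unitExp_mul_prod {N : ℕ} {T : Finset ℕ} (hT : T ⊆ N.primeFactors) :
    unitExp N T * ((∏ p ∈ T, p : ℕ) : ℤ) = (-1) ^ T.card * ∏ p ∈ N.primeFactors, (p : ℤ) := by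
  unfold unitExp
  rw [mul_assoc, Nat.cast_prod, Finset.prod_sdiff hT]

lemma wp3b_gcd_mul_prime_eq {p M c k s : ℕ} (hp : p.Prime) (hs : Nat.Coprime p s)
    (hk : p ^ k ∣ p * M * s) (hc : ¬ p ^ k ∣ c) :
    Nat.gcd (p * M) c = Nat.gcd M c := by
  apply Nat.dvd_antisymm
  · refine Nat.dvd_gcd ?_ (Nat.gcd_dvd_right _ _)
    rw [Nat.dvd_iff_prime_pow_dvd_dvd]
    intro q j hq hqj
    have hqc : q ^ j ∣ c := hqj.trans (Nat.gcd_dvd_right _ _)
    have hqpM : q ^ j ∣ p * M := hqj.trans (Nat.gcd_dvd_left _ _)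
    by_cases hqp : q = p
    · subst hqp
      have hjk : j < k := by
        by_contra h
        exact hc ((pow_dvd_pow q (not_lt.mp h)).trans hqc)
      have h1 : q ^ (j + 1) ∣ q * M * s := (pow_dvd_pow q hjk).trans hk
      have h2 : q ^ (j + 1) ∣ q * (M * s) := by rwa [mul_assoc] at h1
      rw [pow_succ'] at h2
      have h3 : q ^ j ∣ M * s := Nat.dvd_of_mul_dvd_mul_left hq.pos h2
      exact (Nat.Coprime.pow_left j hs).dvd_of_dvd_mul_right h3
    · have hcop : Nat.Coprime (q ^ j) p :=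
        Nat.Coprime.pow_left j ((Nat.coprime_primes hq hp).mpr hqp)
      exact hcop.dvd_of_dvd_mul_left hqpM
  · exact Nat.dvd_gcd ((Nat.gcd_dvd_left _ _).trans (Dvd.intro_left _ rfl)) (Nat.gcd_dvd_right _ _)

/-- Passing from `T` to `insert p T` does not change `gcd(δ_T, c)` when `p^k ∣ N`, `p^k ∤ c`. -/
lemma wp3b_gcd_unitDelta_insert {N c p k : ℕ} (hp : p ∈ N.primeFactors) {T : Finset ℕ}
    (hT : T ⊆ N.primeFactors.erase p) (hk : p ^ k ∣ N) (hc : ¬ p ^ k ∣ c) :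
    Nat.gcd (unitDelta N (insert p T)) c = Nat.gcd (unitDelta N T) c := by
  have hpT : p ∉ T := fun h => (Finset.mem_erase.mp (hT h)).1 rfl
  have hT' : T ⊆ N.primeFactors := hT.trans (Finset.erase_subset _ _)
  have hins : insert p T ⊆ N.primeFactors := Finset.insert_subset hp hT'
  have hpp : p.Prime := Nat.prime_of_mem_primeFactors hp
  have h1 : unitDelta N (insert p T) * (p * ∏ q ∈ T, q) = N := by
    have := unitDelta_mul hins
    rwa [Finset.prod_insert hpT] at this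
  have h2 : unitDelta N T = p * unitDelta N (insert p T) := by
    have h3 := unitDelta_mul hT'
    have hpos := wp3b_prod_pos_of_subset_primeFactors hT'
    apply Nat.eq_of_mul_eq_mul_right hpos
    have h4 : p * unitDelta N (insert p T) * ∏ q ∈ T, q =
        unitDelta N (insert p T) * (p * ∏ q ∈ T, q) := by ring
    rw [h3, h4, h1]
  rw [h2]
  symm
  refine wp3b_gcd_mul_prime_eq (k := k) (s := ∏ q ∈ T, q) hpp ?_ ?_ hc
  · refine Nat.Coprime.prod_right fun q hq => ?_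
    have hqp : q.Prime := Nat.prime_of_mem_primeFactors (hT' hq)
    exact (Nat.coprime_primes hpp hqp).mpr (fun h => hpT (h ▸ hq))
  · have h4 : p * unitDelta N (insert p T) * ∏ q ∈ T, q =
        unitDelta N (insert p T) * (p * ∏ q ∈ T, q) := by ring
    rw [h4, h1]; exact hk

/-- The alternating sum of `gcd(δ_T, c)²` vanishes when `N ∤ c`. -/
lemma wp3b_sum_neg_one_pow_gcd_sq {N : ℕ} (hN : N ≠ 0) {c : ℕ} (hc : ¬ N ∣ c) :
    ∑ T ∈ unitIdx N, (-1 : ℤ) ^ T.card * ((Nat.gcd (unitDelta N T) c : ℕ) : ℤ) ^ 2 = 0 := by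
  obtain ⟨p, k, hp, hkN, hkc⟩ : ∃ p k : ℕ, p.Prime ∧ p ^ k ∣ N ∧ ¬ p ^ k ∣ c := by
    by_contra h
    push Not at h
    exact hc ((Nat.dvd_iff_prime_pow_dvd_dvd c N).mpr fun p k hp hk => h p k hp hk)
  have hk0 : k ≠ 0 := by
    rintro rfl
    exact hkc (by simp)
  have hpN : p ∈ N.primeFactors :=
    Nat.mem_primeFactors.mpr ⟨hp, (dvd_pow_self p hk0).trans hkN, hN⟩
  unfold unitIdx
  rw [← Finset.insert_erase hpN, Finset.sum_powerset_insert (Finset.notMem_erase _ _),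
    ← Finset.sum_add_distrib]
  refine Finset.sum_eq_zero fun T hT => ?_
  have hT' : T ⊆ N.primeFactors.erase p := Finset.mem_powerset.mp hT
  have hpT : p ∉ T := fun h => (Finset.mem_erase.mp (hT' h)).1 rfl
  rw [wp3b_gcd_unitDelta_insert hpN hT' hkN hkc, Finset.card_insert_of_notMem hpT, pow_succ]
  ring

/-- The set of levels `δ_T`, `T ⊆ primeFactors N`. -/
def unitSet (N : ℕ) : Finset ℕ := (unitIdx N).image (unitDelta N)

/-- The exponent as a function of the level `δ`: `m(δ) = m_T` for `T = primeFactors (N / δ)`. -/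
def unitM (N : ℕ) (δ : ℕ) : ℤ := unitExp N (N / δ).primeFactors

lemma wp3b_div_unitDelta {N : ℕ} (hN : N ≠ 0) {T : Finset ℕ} (hT : T ⊆ N.primeFactors) :
    N / unitDelta N T = ∏ p ∈ T, p := by
  unfold unitDelta
  exact Nat.div_div_self (wp3b_prod_dvd_of_subset_primeFactors hT) hN

lemma wp3b_primeFactors_prod_of_subset {N : ℕ} {T : Finset ℕ} (hT : T ⊆ N.primeFactors) :
    (∏ p ∈ T, p).primeFactors = T :=
  Nat.primeFactors_prod fun _ hp => Nat.prime_of_mem_primeFactors (hT hp)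

lemma unitM_unitDelta {N : ℕ} (hN : N ≠ 0) {T : Finset ℕ} (hT : T ⊆ N.primeFactors) :
    unitM N (unitDelta N T) = unitExp N T := by
  unfold unitM
  rw [wp3b_div_unitDelta hN hT, wp3b_primeFactors_prod_of_subset hT]

lemma unitDelta_injOn {N : ℕ} (hN : N ≠ 0) :
    Set.InjOn (unitDelta N) (unitIdx N : Set (Finset ℕ)) := by
  intro T hT T' hT' h
  have hT1 : T ⊆ N.primeFactors := Finset.mem_powerset.mp hT
  have hT2 : T' ⊆ N.primeFactors := Finset.mem_powerset.mp hT'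
  have h1 := wp3b_div_unitDelta hN hT1
  have h2 := wp3b_div_unitDelta hN hT2
  rw [h] at h1
  rw [← wp3b_primeFactors_prod_of_subset hT1, ← wp3b_primeFactors_prod_of_subset hT2, ← h1, ← h2]

lemma sum_unitSet {N : ℕ} (hN : N ≠ 0) {α : Type*} [AddCommMonoid α] (F : ℕ → α) :
    ∑ δ ∈ unitSet N, F δ = ∑ T ∈ unitIdx N, F (unitDelta N T) :=
  Finset.sum_image (unitDelta_injOn hN)

lemma prod_unitSet {N : ℕ} (hN : N ≠ 0) {α : Type*} [CommMonoid α] (F : ℕ → α) :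
    ∏ δ ∈ unitSet N, F δ = ∏ T ∈ unitIdx N, F (unitDelta N T) :=
  Finset.prod_image (unitDelta_injOn hN)

lemma wp3b_dvd_of_mem_unitSet {N : ℕ} {δ : ℕ} (h : δ ∈ unitSet N) : δ ∣ N := by
  obtain ⟨T, hT, rfl⟩ := Finset.mem_image.mp h
  exact unitDelta_dvd (Finset.mem_powerset.mp hT)

lemma wp3b_ne_zero_of_mem_unitSet {N : ℕ} (hN : N ≠ 0) {δ : ℕ} (h : δ ∈ unitSet N) : δ ≠ 0 := by
  rintro rfl
  exact hN (Nat.eq_zero_of_zero_dvd (wp3b_dvd_of_mem_unitSet h))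

lemma wp3b_self_mem_unitSet (N : ℕ) : N ∈ unitSet N := by
  refine Finset.mem_image.mpr ⟨∅, Finset.mem_powerset.mpr (Finset.empty_subset _), ?_⟩
  simp [unitDelta]

lemma sum_unitM (N : ℕ) (hN : N ≠ 0) : ∑ δ ∈ unitSet N, unitM N δ = (unitPhi N : ℤ) := by
  rw [sum_unitSet hN, ← sum_unitExp]
  exact Finset.sum_congr rfl fun T hT => unitM_unitDelta hN (Finset.mem_powerset.mp hT)

/-! ### `N`-units: positive rationals all of whose primes divide `N` -/

/-- `r = a / b` with `a, b` positive integers all of whose prime factors divide `N`. -/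
def IsNUnit (N : ℕ) (r : ℝ) : Prop :=
  ∃ a b : ℕ, 0 < a ∧ 0 < b ∧ (∀ p : ℕ, p.Prime → p ∣ a → p ∣ N) ∧
    (∀ p : ℕ, p.Prime → p ∣ b → p ∣ N) ∧ r = (a : ℝ) / (b : ℝ)

lemma IsNUnit.pos {N : ℕ} {r : ℝ} (h : IsNUnit N r) : 0 < r := by
  obtain ⟨a, b, ha, hb, -, -, rfl⟩ := h
  positivity

lemma isNUnit_one (N : ℕ) : IsNUnit N 1 :=
  ⟨1, 1, one_pos, one_pos, fun p hp h => absurd (Nat.dvd_one.mp h) hp.ne_one,
    fun p hp h => absurd (Nat.dvd_one.mp h) hp.ne_one, by simp⟩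

lemma IsNUnit.mul {N : ℕ} {r s : ℝ} (hr : IsNUnit N r) (hs : IsNUnit N s) : IsNUnit N (r * s) := by
  obtain ⟨a, b, ha, hb, ha', hb', rfl⟩ := hr
  obtain ⟨c, d, hc, hd, hc', hd', rfl⟩ := hs
  refine ⟨a * c, b * d, Nat.mul_pos ha hc, Nat.mul_pos hb hd, fun p hp h => ?_, fun p hp h => ?_, ?_⟩
  · rcases (Nat.Prime.dvd_mul hp).mp h with h | h
    exacts [ha' p hp h, hc' p hp h]
  · rcases (Nat.Prime.dvd_mul hp).mp h with h | h
    exacts [hb' p hp h, hd' p hp h]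
  · push_cast
    have hb0 : (b : ℝ) ≠ 0 := by positivity
    have hd0 : (d : ℝ) ≠ 0 := by positivity
    field_simp

lemma IsNUnit.inv {N : ℕ} {r : ℝ} (hr : IsNUnit N r) : IsNUnit N r⁻¹ := by
  obtain ⟨a, b, ha, hb, ha', hb', rfl⟩ := hr
  exact ⟨b, a, hb, ha, hb', ha', by rw [inv_div]⟩

lemma IsNUnit.pow {N : ℕ} {r : ℝ} (hr : IsNUnit N r) (n : ℕ) : IsNUnit N (r ^ n) := by
  induction n with
  | zero => simpa using isNUnit_one N
  | succ n ih => rw [pow_succ]; exact ih.mul hr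

lemma IsNUnit.zpow {N : ℕ} {r : ℝ} (hr : IsNUnit N r) (n : ℤ) : IsNUnit N (r ^ n) := by
  obtain ⟨k, rfl | rfl⟩ := Int.eq_nat_or_neg n
  · simpa using hr.pow k
  · rw [zpow_neg, zpow_natCast]; exact (hr.pow k).inv

lemma isNUnit_natCast {N e : ℕ} (hN : N ≠ 0) (he : e ∣ N) : IsNUnit N (e : ℝ) :=
  ⟨e, 1, Nat.pos_of_ne_zero fun h => hN (by rw [h] at he; exact Nat.eq_zero_of_zero_dvd he),
    one_pos, fun _ _ h => h.trans he, fun p hp h => absurd (Nat.dvd_one.mp h) hp.ne_one, by simp⟩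

lemma isNUnit_prod {N : ℕ} {ι : Type*} (s : Finset ι) (f : ι → ℝ)
    (h : ∀ i ∈ s, IsNUnit N (f i)) : IsNUnit N (∏ i ∈ s, f i) :=
  Finset.prod_induction f (IsNUnit N) (fun _ _ => IsNUnit.mul) (isNUnit_one N) h

/-- An `N`-unit which is (the absolute value of) a rational number has trivial `ℓ`-adic
valuation for every prime `ℓ ∤ N`. -/
lemma IsNUnit.padicValRat_eq_zero {N : ℕ} {x : ℚ} (h : IsNUnit N (|x| : ℚ)) {ℓ : ℕ}
    (hℓ : ℓ.Prime) (hℓN : ¬ ℓ ∣ N) : padicValRat ℓ x = 0 := by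
  obtain ⟨a, b, ha, hb, ha', hb', hx⟩ := h
  have : Fact ℓ.Prime := ⟨hℓ⟩
  have hx' : |x| = (a : ℚ) / (b : ℚ) := by
    have h2 : ((|x| : ℚ) : ℝ) = (((a : ℚ) / (b : ℚ) : ℚ) : ℝ) := by
      rw [hx]; push_cast; rfl
    exact Rat.cast_injective h2
  have hla : ¬ ℓ ∣ a := fun h => hℓN (ha' ℓ hℓ h)
  have hlb : ¬ ℓ ∣ b := fun h => hℓN (hb' ℓ hℓ h)
  have h1 : padicValRat ℓ |x| = 0 := by
    rw [hx', padicValRat.div (by positivity) (by positivity)]
    simp [padicValNat.eq_zero_of_not_dvd hla, padicValNat.eq_zero_of_not_dvd hlb]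
  rcases abs_choice x with h | h
  · rwa [h] at h1
  · rw [h, padicValRat.neg] at h1; exact h1

end Fermat.Agent.S28
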